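import Mathlib
import Fermat.Agent.H84.ORD.NodalSpecFinal
import Fermat.Agent.H66.ORD.RangeMul
import Fermat.Agent.H62.SS.HauptIntegral
import Fermat.Agent.H48.SS.HauptBasics

/-!
# P-ORD, block B1, row [XY] part (c) : the dictionary number field → `ℚ̄` at level `M` (helper59)

`K` a subfield of `ℚ̄`, `ι : K → ℚ̄` the inclusion, `A₀ = A ∩ K`.

* `nmoBc N K : ModelField K N → FLb N` : coefficientwise base change; it maps the chart
  `chartClosure A₀ (ModelField K N) j` into the `ℚ̄`-chart `nmChart N A j` (`nmoBc_mem_nmChart`);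
* `nmoThetaOo = α ∘ bc`, `nmoThetaZero = β ∘ bc : ModelField K M → FLb (M p)` : the two
  degeneracy maps; both map the level-`M` chart over `A₀` into the `ℚ̄`-chart of level `M p`
  (`nmoThetaOo_mem_nmChart`, `nmoThetaZero_mem_nmChart`).
-/

set_option autoImplicit false
set_option linter.unusedSectionVars false
set_option linter.style.haveILetI false
set_option maxSynthPendingDepth 3
set_option synthInstance.maxHeartbeats 400000
set_option maxHeartbeats 1600000

noncomputable section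

open AlgebraicCurve ModularCurve
open Fermat.Agent.H72.FF Fermat.Agent.H18.ORD Fermat.Agent.H66 Fermat.Agent.H27.ESD
open Fermat.Agent.H22.KL Fermat.Agent.H93.KL Fermat.Agent.H84.ORD Fermat.Agent.H9.E6

namespace Fermat.Agent.H59.ORD

section Bc

variable (N : ℕ) (K : IntermediateField ℚ Qb)

/-- coefficientwise base change `ModelField K N → FLb N` -/
def nmoBc : ModelField ↥K N →+* FLb N :=
  klBc (algebraMap ↥K Qb) (modularFunctionFieldFull N)

theorem coe_nmoBc (b : ModelField ↥K N) :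
    ((nmoBc N K b : FLb N) : LaurentSeries Qb) =
      coeffMap (algebraMap ↥K Qb) (b : LaurentSeries ↥K) := rfl

theorem nmoBc_injective : Function.Injective (nmoBc N K) := (nmoBc N K).injective

theorem nmoBc_algebraMap (a : ↥K) :
    nmoBc N K (algebraMap ↥K (ModelField ↥K N) a) = algebraMap Qb (FLb N) (a : Qb) := by
  apply Subtype.ext
  rw [coe_nmoBc]
  show coeffMap (algebraMap ↥K Qb) (algebraMap ↥K (LaurentSeries ↥K) a) =
    algebraMap Qb (LaurentSeries Qb) (a : Qb)
  rw [algebraMap_laurentSeries_eq_single, coeffMap_single, ← algebraMap_laurentSeries_eq_single]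
  rfl

theorem nmoBc_coeffEmb (f₀ : LaurentSeries ℚ) (x : ModelField ↥K N)
    (hx : (x : LaurentSeries ↥K) = coeffEmb ↥K f₀) :
    ((nmoBc N K x : FLb N) : LaurentSeries Qb) = coeffEmb Qb f₀ := by
  rw [coe_nmoBc, hx, coeffEmb, coeffMap_coeffMap]
  exact coeffMap_congr (RingHom.ext fun c => by simp) f₀

theorem nmoBc_x [NeZero N] (x : ModelField ↥K N)
    (hx : (x : LaurentSeries ↥K) = coeffEmb ↥K jq) : nmoBc N K x = nmJ N := by
  apply Subtype.ext
  rw [nmoBc_coeffEmb N K jq x hx]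
  show coeffEmb Qb jq = coeffEmb Qb (qExpand ℚ 1 jq)
  rw [qExpand_one_apply]

variable (A : ValuationSubring Qb)

/-- **Integrality ascent** : base change maps the chart over `A ∩ K` into the `ℚ̄`-chart. -/
theorem nmoBc_mem_nmChart [NeZero N] (x : ModelField ↥K N)
    (hx : (x : LaurentSeries ↥K) = coeffEmb ↥K jq) (b : ModelField ↥K N)
    (hb : letI := modelAlgebra ↥K (A.comap (algebraMap ↥K Qb)) N
      b ∈ chartClosure ↥(A.comap (algebraMap ↥K Qb)) (ModelField ↥K N) x) :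
    nmoBc N K b ∈ nmChart N A (nmJ N) := by
  letI := modelAlgebra ↥K (A.comap (algebraMap ↥K Qb)) N
  rw [Fermat.Agent.H62.SS.mem_chartClosure_iff] at hb
  -- `bc (A₀[x]) ⊆ A[j]`
  have hle : ∀ w ∈ chartRing ↥(A.comap (algebraMap ↥K Qb)) (ModelField ↥K N) x,
      nmoBc N K w ∈ nmPoly N A (nmJ N) := by
    intro w hw
    rw [chartRing] at hw
    induction hw using Algebra.adjoin_induction with
    | mem y hy =>
      rw [Set.mem_singleton_iff] at hy
      rw [hy, nmoBc_x N K x hx]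
      exact self_mem_nmPoly A _
    | algebraMap a =>
      have h1 : algebraMap ↥(A.comap (algebraMap ↥K Qb)) (ModelField ↥K N) a =
          algebraMap ↥K (ModelField ↥K N) (a : ↥K) := rfl
      rw [h1, nmoBc_algebraMap]
      exact algebraMap_mem_nmPoly A _ a.2
    | add y z _ _ hy hz =>
      rw [map_add]
      exact (nmPoly N A (nmJ N)).add_mem hy hz
    | mul y z _ _ hy hz =>
      rw [map_mul]
      exact (nmPoly N A (nmJ N)).mul_mem hy hz
  let ψ : chartRing ↥(A.comap (algebraMap ↥K Qb)) (ModelField ↥K N) x →+* ↥(nmPoly N A (nmJ N)) :=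
    { toFun := fun w => ⟨nmoBc N K w, hle w w.2⟩
      map_one' := Subtype.ext (map_one (nmoBc N K))
      map_mul' := fun _ _ => Subtype.ext (map_mul (nmoBc N K) _ _)
      map_zero' := Subtype.ext (map_zero (nmoBc N K))
      map_add' := fun _ _ => Subtype.ext (map_add (nmoBc N K) _ _) }
  obtain ⟨q, hq, hq0⟩ := hb
  rw [mem_nmChart_iff]
  refine ⟨q.map ψ, hq.map ψ, ?_⟩
  rw [Polynomial.eval₂_map]
  have hcomp : ((nmPoly N A (nmJ N)).subtype).comp ψ =
      (nmoBc N K).comp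
        (algebraMap (chartRing ↥(A.comap (algebraMap ↥K Qb)) (ModelField ↥K N) x)
          (ModelField ↥K N)) := by
    ext w
    rfl
  rw [hcomp]
  have h := Polynomial.hom_eval₂ q
    (algebraMap (chartRing ↥(A.comap (algebraMap ↥K Qb)) (ModelField ↥K N) x) (ModelField ↥K N))
    (nmoBc N K) b
  rw [hq0, map_zero] at h
  exact h.symm

end Bc

/-! ### The trace `A ∩ K` -/

section Trace

variable (K : IntermediateField ℚ Qb) (A : ValuationSubring Qb)

/-- the inclusion `K → ℚ̄` -/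
abbrev nmoι : ↥K →+* Qb := algebraMap ↥K Qb

/-- `A ∩ K` -/
abbrev nmoA : ValuationSubring ↥K := A.comap (nmoι K)

theorem nmo_numberField [hfd : FiniteDimensional ℚ ↥K] : NumberField ↥K :=
  Fermat.Agent.H66.ORD.ordNumberField_of_fd ↥K

theorem nmo_isDVR [FiniteDimensional ℚ ↥K] {p : ℕ} (hp : p.Prime) (hA : A.LiesOverPrime p) :
    IsDiscreteValuationRing ↥(nmoA K A) := by
  haveI : NumberField ↥K := nmo_numberField K
  exact comap_isDiscreteValuationRing (nmoι K) A (Nat.cast_ne_zero.mpr hp.ne_zero) hA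

theorem nmo_not_isUnit {p : ℕ} (hA : A.LiesOverPrime p) :
    ¬ IsUnit ((p : ℕ) : ↥(nmoA K A)) := by
  have h1 := natCast_mem_nonunits_comap (nmoι K) A hA
  rw [ValuationSubring.mem_nonunits_iff_exists_mem_maximalIdeal] at h1
  obtain ⟨hmem, hmax⟩ := h1
  rw [IsLocalRing.mem_maximalIdeal, mem_nonunits_iff] at hmax
  intro hu
  apply hmax
  have e : (⟨(p : ↥K), hmem⟩ : ↥(nmoA K A)) = ((p : ℕ) : ↥(nmoA K A)) :=
    Subtype.ext (by simp)
  rw [e]
  exact hu

end Trace

/-! ### The two degeneracy maps -/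

section Theta

variable (M p : ℕ) [NeZero M] [NeZero p] (K : IntermediateField ℚ Qb)

/-- `Θ_∞ = α ∘ bc` -/
def nmoThetaOo : ModelField ↥K M →+* FLb (M * p) :=
  ((heckeAlphaBar Qb M p : FLb M →ₐ[Qb] FLb (M * p)) : FLb M →+* FLb (M * p)).comp
    (nmoBc M K)

/-- `Θ_0 = β ∘ bc` -/
def nmoThetaZero : ModelField ↥K M →+* FLb (M * p) :=
  ((heckeBetaBar Qb M p : FLb M →ₐ[Qb] FLb (M * p)) : FLb M →+* FLb (M * p)).comp
    (nmoBc M K)

theorem coe_nmoThetaOo (b : ModelField ↥K M) :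
    ((nmoThetaOo M p K b : FLb (M * p)) : LaurentSeries Qb) =
      coeffMap (algebraMap ↥K Qb) (b : LaurentSeries ↥K) := rfl

theorem coe_nmoThetaZero (b : ModelField ↥K M) :
    ((nmoThetaZero M p K b : FLb (M * p)) : LaurentSeries Qb) =
      qExpand Qb p (coeffMap (algebraMap ↥K Qb) (b : LaurentSeries ↥K)) := rfl

theorem nmoThetaOo_eq (b : ModelField ↥K M) :
    nmoThetaOo M p K b = nmoBc (M * p) K (heckeAlphaBar ↥K M p b) := by
  apply Subtype.ext
  rw [coe_nmoThetaOo, coe_nmoBc, coe_heckeAlphaBar]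

theorem nmoThetaZero_eq (b : ModelField ↥K M) :
    nmoThetaZero M p K b = nmoBc (M * p) K (heckeBetaBar ↥K M p b) := by
  apply Subtype.ext
  rw [coe_nmoThetaZero, coe_nmoBc, coe_heckeBetaBar, ModularCurve.coeffMap_qExpand]

theorem nmoThetaOo_algebraMap (a : ↥K) :
    nmoThetaOo M p K (algebraMap ↥K (ModelField ↥K M) a) =
      algebraMap Qb (FLb (M * p)) (a : Qb) := by
  rw [nmoThetaOo_eq, AlgHom.commutes, nmoBc_algebraMap]

theorem nmoThetaZero_algebraMap (a : ↥K) :
    nmoThetaZero M p K (algebraMap ↥K (ModelField ↥K M) a) =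
      algebraMap Qb (FLb (M * p)) (a : Qb) := by
  rw [nmoThetaZero_eq, AlgHom.commutes, nmoBc_algebraMap]

/-- the Atkin-Lehner involution exchanges `Θ_∞` and `Θ_0` -/
theorem nmW_nmoThetaZero (hcop : Nat.Coprime M p) (b : ModelField ↥K M) :
    nmW M p hcop (nmoThetaZero M p K b) = nmoThetaOo M p K b :=
  (nmW_spec M p hcop).2.2.1 (nmoBc M K b)

theorem nmW_nmoThetaOo (hcop : Nat.Coprime M p) (b : ModelField ↥K M) :
    nmW M p hcop (nmoThetaOo M p K b) = nmoThetaZero M p K b :=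
  (nmW_spec M p hcop).2.1 (nmoBc M K b)

variable (A : ValuationSubring Qb)

/-- `Θ_∞` maps the level-`M` chart over `A ∩ K` into the `ℚ̄`-chart of level `M p`. -/
theorem nmoThetaOo_mem_nmChart (x : ModelField ↥K M)
    (hx : (x : LaurentSeries ↥K) = coeffEmb ↥K jq) (b : ModelField ↥K M)
    (hb : letI := modelAlgebra ↥K (nmoA K A) M
      b ∈ chartClosure ↥(nmoA K A) (ModelField ↥K M) x) :
    nmoThetaOo M p K b ∈ nmChart (M * p) A (nmJ (M * p)) := by
  letI := modelAlgebra ↥K (nmoA K A) M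
  haveI := modelAlgebra_isScalarTower ↥K (nmoA K A) M
  letI := modelAlgebra ↥K (nmoA K A) (M * p)
  haveI := modelAlgebra_isScalarTower ↥K (nmoA K A) (M * p)
  rw [nmoThetaOo_eq]
  have hx' : ((heckeAlphaBar ↥K M p x : ModelField ↥K (M * p)) : LaurentSeries ↥K) =
      coeffEmb ↥K jq := by rw [coe_heckeAlphaBar, hx]
  refine nmoBc_mem_nmChart (M * p) K A (heckeAlphaBar ↥K M p x) hx' _ ?_
  exact Fermat.Agent.H62.SS.chartClosure_alpha_le M p ↥K ↥(nmoA K A) (heckeAlphaBar ↥K M p x) x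
    (Fermat.Agent.H62.SS.chartRing_le_chartClosure _
      (Fermat.Agent.H62.SS.self_mem_chartRing _)) b hb

/-- `Θ_0` maps the level-`M` chart over `A ∩ K` into the `ℚ̄`-chart of level `M p`
(`W` preserves `B(j)`, helper48's `modelHauptBasics`). -/
theorem nmoThetaZero_mem_nmChart [FiniteDimensional ℚ ↥K] (h4 : 4 ∣ M) (hp : p.Prime)
    (hp2 : p ≠ 2) (hpM : ¬ p ∣ M) (hA : A.LiesOverPrime p) (x : ModelField ↥K M)
    (hx : (x : LaurentSeries ↥K) = coeffEmb ↥K jq) (b : ModelField ↥K M)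
    (hb : letI := modelAlgebra ↥K (nmoA K A) M
      b ∈ chartClosure ↥(nmoA K A) (ModelField ↥K M) x) :
    nmoThetaZero M p K b ∈ nmChart (M * p) A (nmJ (M * p)) := by
  letI := modelAlgebra ↥K (nmoA K A) M
  haveI := modelAlgebra_isScalarTower ↥K (nmoA K A) M
  letI := modelAlgebra ↥K (nmoA K A) (M * p)
  haveI := modelAlgebra_isScalarTower ↥K (nmoA K A) (M * p)
  haveI := nmo_isDVR K A hp hA
  have hcop : Nat.Coprime M p := ((Nat.Prime.coprime_iff_not_dvd hp).2 hpM).symm
  obtain ⟨W, hW⟩ := Fermat.Agent.H62.SS.modelAtkinLehnerExists M p hcop ↥K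
  have hx' : ((heckeAlphaBar ↥K M p x : ModelField ↥K (M * p)) : LaurentSeries ↥K) =
      coeffEmb ↥K jq := by rw [coe_heckeAlphaBar, hx]
  obtain ⟨hWB, -⟩ := Fermat.Agent.H48.SSHaupt.modelHauptBasics M p h4 hp hp2 hpM ↥K
    ↥(nmoA K A) (nmo_not_isUnit K A hA) (heckeAlphaBar ↥K M p x) hx' W hW
  have h1 : heckeAlphaBar ↥K M p b ∈
      chartClosure ↥(nmoA K A) (ModelField ↥K (M * p)) (heckeAlphaBar ↥K M p x) :=
    Fermat.Agent.H62.SS.chartClosure_alpha_le M p ↥K ↥(nmoA K A) (heckeAlphaBar ↥K M p x) x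
      (Fermat.Agent.H62.SS.chartRing_le_chartClosure _
        (Fermat.Agent.H62.SS.self_mem_chartRing _)) b hb
  have h2 := hWB _ h1
  rw [hW.1 b] at h2
  rw [nmoThetaZero_eq]
  exact nmoBc_mem_nmChart (M * p) K A (heckeAlphaBar ↥K M p x) hx' _ h2

end Theta

end Fermat.Agent.H59.ORD
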