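import Mathlib
import Fermat.Agent.H59.ORD.NmTheta
import Fermat.Agent.H87.KL.KumIdem

/-!
# P-ORD, block B1, row [XY] part (c) : FRAC at the `ℚ̄`-level, in chart form (helper59)

`nmo_frac` : every element `w` of the residue field `F_∞ = NmF (M p) A` of the Gauss valuation
of level `M p` is a quotient `red (Θ_∞ b₁) / red (Θ_∞ b₂)` of reductions of elements of the
level-`M` chart over `A ∩ K`, `K ⊆ ℚ̄` a number field which can be chosen to contain a given
`c₀ ∈ ℚ̄`.  (Descent to `K`, helper66's `modelFrac` over `(K, A ∩ K)`, base change back: the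
proof of `Fermat.Agent.H66.ORD.gaussRange_mul_exists`, keeping the chart.)
-/

set_option autoImplicit false
set_option linter.unusedSectionVars false
set_option linter.unusedVariables false
set_option linter.style.haveILetI false
set_option maxSynthPendingDepth 3
set_option synthInstance.maxHeartbeats 400000
set_option maxHeartbeats 1600000

noncomputable section

open AlgebraicCurve ModularCurve Polynomial
open Fermat.Agent.H72.FF Fermat.Agent.H18.ORD Fermat.Agent.H66 Fermat.Agent.H27.ESD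
open Fermat.Agent.H22.KL Fermat.Agent.H93.KL Fermat.Agent.H84.ORD Fermat.Agent.H9.E6
open Fermat.Agent.H7.SS Fermat.Agent.H66.SS Fermat.Agent.H66.ORD

namespace Fermat.Agent.H59.ORD

/-- the coordinate `j` of the model field over `K` -/
def nmoX (N : ℕ) [NeZero N] (K : IntermediateField ℚ Qb) : ModelField ↥K N :=
  ⟨coeffEmb ↥K jq, coeffEmb_mem_laurentBaseChange ↥K (by
    have h := jqd_mem_full N (one_dvd N)
    rwa [qExpand_one_apply] at h)⟩

theorem coe_nmoX (N : ℕ) [NeZero N] (K : IntermediateField ℚ Qb) :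
    ((nmoX N K : ModelField ↥K N) : LaurentSeries ↥K) = coeffEmb ↥K jq := rfl

section Pull

variable {A : Type} [CommRing A] [IsDomain A]
variable {E₀ E : Type} [Field E₀] [Field E] [Algebra A E₀] [Algebra A E] [Algebra E₀ E]
  [IsScalarTower A E₀ E]

/-- integrality over `A[x]` descends along a field extension -/
theorem nmo_intX_of_map_tower {x z : E₀}
    (hz : Fermat.Agent.H87.KL.IntX (A := A) (algebraMap E₀ E x) (algebraMap E₀ E z)) :
    Fermat.Agent.H87.KL.IntX (A := A) x z := by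
  obtain ⟨q, hq, hqz⟩ := hz
  refine ⟨q, hq, ?_⟩
  rw [Fermat.Agent.H87.KL.evX_algebraMap, ← Polynomial.hom_eval₂] at hqz
  exact (algebraMap E₀ E).injective (hqz.trans (map_zero _).symm)

end Pull

section Frac

variable (M p : ℕ) [NeZero M] [NeZero p] (A : ValuationSubring Qb)

/-- the chart of level `M` is the preimage of the chart of level `M p` -/
theorem nmo_chart_of_alpha (K : IntermediateField ℚ Qb) (b : ModelField ↥K M)
    (hb : letI := modelAlgebra ↥K (nmoA K A) (M * p)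
      heckeAlphaBar ↥K M p b ∈
        chartClosure ↥(nmoA K A) (ModelField ↥K (M * p)) (nmoX (M * p) K)) :
    letI := modelAlgebra ↥K (nmoA K A) M
    b ∈ chartClosure ↥(nmoA K A) (ModelField ↥K M) (nmoX M K) := by
  letI := modelAlgebra ↥K (nmoA K A) M
  haveI := modelAlgebra_isScalarTower ↥K (nmoA K A) M
  letI := modelAlgebra ↥K (nmoA K A) (M * p)
  haveI := modelAlgebra_isScalarTower ↥K (nmoA K A) (M * p)
  letI algT : Algebra (ModelField ↥K M) (ModelField ↥K (M * p)) :=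
    (heckeAlphaBar ↥K M p).toRingHom.toAlgebra
  have halg : ∀ z' : ModelField ↥K M,
      algebraMap (ModelField ↥K M) (ModelField ↥K (M * p)) z' = heckeAlphaBar ↥K M p z' :=
    fun _ => rfl
  haveI towT : IsScalarTower ↥(nmoA K A) (ModelField ↥K M) (ModelField ↥K (M * p)) :=
    IsScalarTower.of_algebraMap_eq (fun a => by
      rw [halg, IsScalarTower.algebraMap_apply ↥(nmoA K A) ↥K (ModelField ↥K (M * p)),
        IsScalarTower.algebraMap_apply ↥(nmoA K A) ↥K (ModelField ↥K M), AlgHom.commutes])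
  have hαx : algebraMap (ModelField ↥K M) (ModelField ↥K (M * p)) (nmoX M K) =
      nmoX (M * p) K := by
    apply Subtype.ext
    rw [halg, coe_heckeAlphaBar]
    rfl
  rw [Fermat.Agent.H87.KL.mem_chartClosure_iff] at hb ⊢
  rw [← halg, ← hαx] at hb
  exact nmo_intX_of_map_tower hb

/-- **FRAC at the `ℚ̄`-level, chart form.** -/
theorem nmo_frac (hp : p.Prime) (hpM : ¬ p ∣ M) (hA : A.LiesOverPrime p)
    (H : NmBase M p A) (c₀ : Qb) (w : NmF (M * p) A) :
    ∃ (K : IntermediateField ℚ Qb) (_ : FiniteDimensional ℚ ↥K) (_ : c₀ ∈ K)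
      (b₁ b₂ : ModelField ↥K M)
      (_ : letI := modelAlgebra ↥K (nmoA K A) M
        b₁ ∈ chartClosure ↥(nmoA K A) (ModelField ↥K M) (nmoX M K))
      (_ : letI := modelAlgebra ↥K (nmoA K A) M
        b₂ ∈ chartClosure ↥(nmoA K A) (ModelField ↥K M) (nmoX M K))
      (h₁ : nmoThetaOo M p K b₁ ∈ gaussOBar (M * p) A)
      (h₂ : nmoThetaOo M p K b₂ ∈ gaussOBar (M * p) A),
      nmRedOo (M * p) A ⟨_, h₂⟩ ≠ 0 ∧
      w * nmRedOo (M * p) A ⟨_, h₂⟩ = nmRedOo (M * p) A ⟨_, h₁⟩ := by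
  classical
  haveI : Fact p.Prime := ⟨hp⟩
  haveI : NeZero (M * p) := ⟨Nat.mul_ne_zero (NeZero.ne M) (NeZero.ne p)⟩
  obtain ⟨u, rfl⟩ := nmRedOo_surjective (M * p) A w
  set U : LaurentSeries Qb := ((u : FLb (M * p)) : LaurentSeries Qb) with hUdef
  have hU : U ∈ modularFunctionFieldBar (M * p) := (u : FLb (M * p)).2
  have hUV : U ∈ vGaussRing A := u.2
  obtain ⟨K₀, hfd₀, hK₀⟩ :=
    Fermat.Agent.H61.coeffDescent (modularFunctionFieldFull (M * p)) U hU
  haveI := hfd₀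
  haveI hfdc : FiniteDimensional ℚ ↥(IntermediateField.adjoin ℚ ({c₀} : Set Qb)) :=
    IntermediateField.adjoin.finiteDimensional
      ((AlgebraicClosure.isAlgebraic ℚ).isAlgebraic c₀).isIntegral
  set K : IntermediateField ℚ Qb := K₀ ⊔ IntermediateField.adjoin ℚ ({c₀} : Set Qb) with hK
  haveI hfd : FiniteDimensional ℚ ↥K := IntermediateField.finiteDimensional_sup K₀ _
  have hc₀K : c₀ ∈ K :=
    (le_sup_right : IntermediateField.adjoin ℚ ({c₀} : Set Qb) ≤ K)
      (IntermediateField.mem_adjoin_simple_self ℚ c₀)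
  obtain ⟨f₁, hf₁, hf₁U⟩ := hK₀ ↥K (algebraMap ↥K Qb)
    (fun c hc => ⟨⟨c, (le_sup_left : K₀ ≤ K) hc⟩, rfl⟩)
  set ι : ↥K →+* Qb := algebraMap ↥K Qb with hι
  haveI hDVR : IsDiscreteValuationRing ↥(nmoA K A) := nmo_isDVR K A hp hA
  obtain ⟨ϖ, hϖ⟩ := IsDiscreteValuationRing.exists_irreducible ↥(nmoA K A)
  letI := modelAlgebra ↥K (nmoA K A) (M * p)
  haveI := modelAlgebra_isScalarTower ↥K (nmoA K A) (M * p)
  letI := modelAlgebra ↥K (nmoA K A) M
  haveI := modelAlgebra_isScalarTower ↥K (nmoA K A) M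
  have hnu : ¬ IsUnit ((p : ℕ) : ↥(nmoA K A)) := nmo_not_isUnit K A hA
  have hG := hasGNF_model ↥K ↥(nmoA K A) (M * p)
  -- the element over the number field
  have hzV : InV (A₀ := ↥(nmoA K A))
      (laurentBaseChange ↥K (modularFunctionFieldFull (M * p))) f₁ :=
    ord_inV_of_bc ι A _ hG hf₁ (by rw [hf₁U]; exact hUV)
  obtain ⟨a, b, ha, hb, hrb, hab⟩ := hzV
  have hbunit : ∃ (n : ℤ) (c : ↥(nmoA K A)), IsUnit c ∧
      algebraMap ↥(nmoA K A) ↥K c = (gIota ↥K ↥(nmoA K A) b).coeff n := by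
    by_contra hcon
    push Not at hcon
    apply hrb
    ext n
    rw [coeffMap_coeff, HahnSeries.coeff_zero, IsLocalRing.residue_eq_zero_iff,
      IsLocalRing.mem_maximalIdeal]
    intro hu
    exact hcon n (b.coeff n) hu (coeffMap_coeff _ _ _).symm
  set z : ModelField ↥K (M * p) := ⟨f₁, hf₁⟩ with hz
  have hquot : ∃ a' b' : ModelField ↥K (M * p),
      (∀ n : ℤ, (a' : LaurentSeries ↥K).coeff n ∈ (algebraMap ↥(nmoA K A) ↥K).range) ∧
      (∀ n : ℤ, (b' : LaurentSeries ↥K).coeff n ∈ (algebraMap ↥(nmoA K A) ↥K).range) ∧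
      (∃ (n : ℤ) (c : ↥(nmoA K A)), IsUnit c ∧
        algebraMap ↥(nmoA K A) ↥K c = (b' : LaurentSeries ↥K).coeff n) ∧
      z * b' = a' :=
    ⟨⟨_, ha⟩, ⟨_, hb⟩, fun n => ⟨a.coeff n, (coeffMap_coeff _ _ _).symm⟩,
      fun n => ⟨b.coeff n, (coeffMap_coeff _ _ _).symm⟩, hbunit, Subtype.ext hab⟩
  obtain ⟨b₁, b₂, hb₁c, hb₂c, hb₂, hD⟩ := modelFrac M p hp hpM ↥K ↥(nmoA K A) hnu ϖ hϖ
    (nmoX (M * p) K) rfl z hquot
  set E := laurentBaseChange ↥K (modularFunctionFieldFull (M * p)) with hE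
  have hDM : InM (A₀ := ↥(nmoA K A)) E
      ((z * heckeAlphaBar ↥K M p b₂ - heckeAlphaBar ↥K M p b₁ : ModelField ↥K (M * p)) :
        LaurentSeries ↥K) := fv_inM_of_quot E hϖ.not_isUnit hD
  have hb₂M : ¬ InM (A₀ := ↥(nmoA K A)) E
      ((heckeAlphaBar ↥K M p b₂ : ModelField ↥K (M * p)) : LaurentSeries ↥K) :=
    fun h => hb₂ (fv_inM_exists_quot E h hϖ)
  have hb₂0 : ((heckeAlphaBar ↥K M p b₂ : ModelField ↥K (M * p)) : LaurentSeries ↥K) ≠ 0 := by
    intro h0
    apply hb₂M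
    rw [h0]
    exact inM_zero E
  have hb₂inv : InV (A₀ := ↥(nmoA K A)) E
      ((heckeAlphaBar ↥K M p b₂ : ModelField ↥K (M * p)) : LaurentSeries ↥K)⁻¹ :=
    (inM_or_inV_inv E hG (heckeAlphaBar ↥K M p b₂).2 hb₂0).resolve_left hb₂M
  -- the chart memberships
  have hb₁M := nmo_chart_of_alpha M p A K b₁ hb₁c
  have hb₂M' := nmo_chart_of_alpha M p A K b₂ hb₂c
  have hΘ₁ : nmoThetaOo M p K b₁ ∈ gaussOBar (M * p) A :=
    nmChart_le A H.oo.val (fun c hc => H.oo.const_mem c hc) H.oo.j_mem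
      (nmoThetaOo_mem_nmChart M p K A (nmoX M K) rfl b₁ hb₁M)
  have hΘ₂ : nmoThetaOo M p K b₂ ∈ gaussOBar (M * p) A :=
    nmChart_le A H.oo.val (fun c hc => H.oo.const_mem c hc) H.oo.j_mem
      (nmoThetaOo_mem_nmChart M p K A (nmoX M K) rfl b₂ hb₂M')
  refine ⟨K, hfd, hc₀K, b₁, b₂, hb₁M, hb₂M', hΘ₁, hΘ₂, ?_, ?_⟩
  · -- `red (Θ b₂) ≠ 0`
    intro h0
    rw [nmRedOo_eq_zero_iff, gaussRedBar_apply] at h0
    have hinvV : coeffMap ι
        (((heckeAlphaBar ↥K M p b₂ : ModelField ↥K (M * p)) : LaurentSeries ↥K)⁻¹) ∈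
        vGaussRing A := ord_bc_inV ι A E hb₂inv
    have hV₂ : coeffMap ι (b₂ : LaurentSeries ↥K) ∈ vGaussRing A := hΘ₂
    have hone : (⟨coeffMap ι (b₂ : LaurentSeries ↥K), hV₂⟩ : ↥(vGaussRing A)) *
        ⟨_, hinvV⟩ = 1 := by
      apply Subtype.ext
      show coeffMap ι (b₂ : LaurentSeries ↥K) *
        coeffMap ι (((heckeAlphaBar ↥K M p b₂ : ModelField ↥K (M * p)) :
          LaurentSeries ↥K)⁻¹) = 1
      rw [← map_mul, coe_heckeAlphaBar]
      rw [coe_heckeAlphaBar] at hb₂0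
      rw [mul_inv_cancel₀ hb₂0, map_one]
    have h1 := congrArg (vGaussRed A) hone
    rw [map_mul, map_one] at h1
    have h2 : vGaussRed A ⟨coeffMap ι (b₂ : LaurentSeries ↥K), hV₂⟩ = 0 := h0
    rw [h2, zero_mul] at h1
    exact zero_ne_one h1
  · -- the congruence
    obtain ⟨hmem, hred⟩ := ord_bc_inM ι A E hDM
    have hsub : (⟨(u : FLb (M * p)) * nmoThetaOo M p K b₂ - nmoThetaOo M p K b₁,
        (gaussOBar (M * p) A).sub_mem ((gaussOBar (M * p) A).mul_mem u.2 hΘ₂) hΘ₁⟩ :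
          ↥(gaussOBar (M * p) A)) = u * ⟨_, hΘ₂⟩ - ⟨_, hΘ₁⟩ := rfl
    have h0 : nmRedOo (M * p) A (u * ⟨_, hΘ₂⟩ - ⟨_, hΘ₁⟩) = 0 := by
      rw [← hsub, nmRedOo_eq_zero_iff, gaussRedBar_apply]
      have e : (((⟨(u : FLb (M * p)) * nmoThetaOo M p K b₂ - nmoThetaOo M p K b₁,
          (gaussOBar (M * p) A).sub_mem ((gaussOBar (M * p) A).mul_mem u.2 hΘ₂) hΘ₁⟩ :
            ↥(gaussOBar (M * p) A)) : FLb (M * p)) : LaurentSeries Qb) =
          coeffMap ι (((z * heckeAlphaBar ↥K M p b₂ - heckeAlphaBar ↥K M p b₁ :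
            ModelField ↥K (M * p)) : LaurentSeries ↥K)) := by
        show U * coeffMap ι (b₂ : LaurentSeries ↥K) - coeffMap ι (b₁ : LaurentSeries ↥K) = _
        have e1 : ((z * heckeAlphaBar ↥K M p b₂ - heckeAlphaBar ↥K M p b₁ :
            ModelField ↥K (M * p)) : LaurentSeries ↥K) =
            f₁ * (b₂ : LaurentSeries ↥K) - (b₁ : LaurentSeries ↥K) := by
          push_cast
          rw [coe_heckeAlphaBar, coe_heckeAlphaBar]
        rw [e1, map_sub, map_mul, hf₁U]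
      have e' : (⟨(((⟨(u : FLb (M * p)) * nmoThetaOo M p K b₂ - nmoThetaOo M p K b₁,
          (gaussOBar (M * p) A).sub_mem ((gaussOBar (M * p) A).mul_mem u.2 hΘ₂) hΘ₁⟩ :
            ↥(gaussOBar (M * p) A)) : FLb (M * p)) : LaurentSeries Qb),
          (gaussOBar (M * p) A).sub_mem ((gaussOBar (M * p) A).mul_mem u.2 hΘ₂) hΘ₁⟩ :
            ↥(vGaussRing A)) = ⟨_, hmem⟩ := Subtype.ext e
      exact (congrArg (vGaussRed A) e').trans hred
    rw [map_sub, map_mul, sub_eq_zero] at h0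
    exact h0

end Frac

end Fermat.Agent.H59.ORD
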