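import Mathlib
import Fermat.Agent.H59.ORD.NmTheta
import Fermat.Agent.H59.SS.LevelRegFrob
import Fermat.Agent.H60.SS2.PolyInt
import Fermat.Agent.H98.SS.GoodBasisH4

/-!
# P-ORD, block B1, row [XY] part (c) : the level-`M` step at the `ℚ̄`-level (helper59)

`K ⊆ ℚ̄` a number field, `A₀ = A ∩ K`, `B = chartClosure A₀ (ModelField K M) j` the level-`M`
chart over `A₀`, `Θ : ModelField K M → FLb (M p)` a ring homomorphism (one of the two degeneracy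
maps composed with the base change) mapping `B` into the composite valuation ring of `P`.
If the centre of `P` is supersingular (`Θ (H - H ^ (p²))` vanishes at the centre) then every
`b ∈ B` vanishing at the centre satisfies `s b = ϖ b₁ + U b₂` with `s` a unit at the centre:
this is `Fermat.Agent.H59.SS.modelLevelRegFrob_h4` at the maximal ideal
`𝔫 = {g ∈ B | (Θ g)(P) ∈ 𝔪_A}`.
-/

set_option autoImplicit false
set_option linter.unusedSectionVars false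
set_option linter.style.haveILetI false
set_option maxSynthPendingDepth 3
set_option synthInstance.maxHeartbeats 400000
set_option maxHeartbeats 1600000

noncomputable section

open AlgebraicCurve ModularCurve Polynomial
open Fermat.Agent.H72.FF Fermat.Agent.H18.ORD Fermat.Agent.H66 Fermat.Agent.H27.ESD
open Fermat.Agent.H22.KL Fermat.Agent.H93.KL Fermat.Agent.H84.ORD Fermat.Agent.H9.E6
open Fermat.Agent.H8.SS

namespace Fermat.Agent.H59.ORD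

section Step

variable {M p : ℕ} [NeZero M] [NeZero p] {A : ValuationSubring Qb}
  (P : Place Qb (FLb (M * p))) (K : IntermediateField ℚ Qb) [FiniteDimensional ℚ ↥K]

/-- a uniformiser of `A ∩ K` is a non-unit of `A` -/
theorem nmo_coe_mem_nonunits {ϖ : ↥(nmoA K A)} (hϖ : ¬ IsUnit ϖ) :
    (((ϖ : ↥K) : Qb)) ∈ A.nonunits := by
  have h1 : (ϖ : ↥K) ∈ (nmoA K A).nonunits :=
    (ValuationSubring.coe_mem_nonunits_iff).2 (by
      rw [IsLocalRing.mem_maximalIdeal, mem_nonunits_iff]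
      exact hϖ)
  rw [ValuationSubring.mem_nonunits_iff] at h1 ⊢
  have h2 : ((ϖ : ↥K) : Qb) ∈ A := ϖ.2
  by_contra hnot
  have h3 : A.valuation ((ϖ : ↥K) : Qb) = 1 :=
    le_antisymm ((ValuationSubring.valuation_le_one_iff _ _).2 h2) (not_lt.1 hnot)
  have h4 : (((ϖ : ↥K) : Qb))⁻¹ ∈ A := by
    rw [← ValuationSubring.valuation_le_one_iff, map_inv₀, h3, inv_one]
  have h5 : ((ϖ : ↥K))⁻¹ ∈ nmoA K A := by
    rw [ValuationSubring.mem_comap, map_inv₀]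
    exact h4
  have h6 : (nmoA K A).valuation ((ϖ : ↥K))⁻¹ ≤ 1 :=
    (ValuationSubring.valuation_le_one_iff _ _).2 h5
  rw [map_inv₀] at h6
  have h0 : (nmoA K A).valuation (ϖ : ↥K) ≠ 0 := by
    intro h0
    have h8 : (ϖ : ↥K) = 0 := (Valuation.zero_iff _).1 h0
    have h7 : (((ϖ : ↥K) : Qb)) = 0 := by
      rw [h8]
      rfl
    rw [h7, map_zero] at h3
    exact zero_ne_one h3
  rw [inv_le_one₀ (zero_lt_iff.2 h0)] at h6
  exact absurd h1 (not_lt.2 h6)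

/-- **The level-`M` step.** -/
theorem nmo_levelStep (h4 : 4 ∣ M) (hp : p.Prime) (hp2 : p ≠ 2) (hpM : ¬ p ∣ M)
    (hA : A.LiesOverPrime p) (hdeg : P.deg = 1)
    (Θ : ModelField ↥K M →+* FLb (M * p))
    (hΘa : ∀ a : ↥K, Θ (algebraMap ↥K (ModelField ↥K M) a) =
      algebraMap Qb (FLb (M * p)) (a : Qb))
    (x : ModelField ↥K M) (hx : (x : LaurentSeries ↥K) = coeffEmb ↥K jq)
    (hΘB : ∀ b : ModelField ↥K M,
      (letI := modelAlgebra ↥K (nmoA K A) M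
       b ∈ chartClosure ↥(nmoA K A) (ModelField ↥K M) x) → Θ b ∈ nmInt A P)
    (c₀ : ↥K) (hc₀A : (c₀ : Qb) ∈ A)
    (hc₀ : Θ (x - algebraMap ↥K (ModelField ↥K M) c₀) ∈ nmMax A P)
    (Hh : ModelField ↥K M) (hH : (Hh : LaurentSeries ↥K) = coeffEmb ↥K (h4S ℚ))
    (hU : Θ (Hh - Hh ^ (p ^ 2)) ∈ nmMax A P)
    (b : ModelField ↥K M)
    (hb : letI := modelAlgebra ↥K (nmoA K A) M
      b ∈ chartClosure ↥(nmoA K A) (ModelField ↥K M) x)
    (hbm : Θ b ∈ nmMax A P) :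
    letI := modelAlgebra ↥K (nmoA K A) M
    ∃ s b₁ b₂ : ModelField ↥K M,
      s ∈ chartClosure ↥(nmoA K A) (ModelField ↥K M) x ∧
      b₁ ∈ chartClosure ↥(nmoA K A) (ModelField ↥K M) x ∧
      b₂ ∈ chartClosure ↥(nmoA K A) (ModelField ↥K M) x ∧
      Θ s ∉ nmMax A P ∧
      ∃ c : Qb, c ∈ A.nonunits ∧
        Θ s * Θ b = algebraMap Qb (FLb (M * p)) c * Θ b₁ + Θ (Hh - Hh ^ (p ^ 2)) * Θ b₂ := by
  letI := modelAlgebra ↥K (nmoA K A) M
  haveI := modelAlgebra_isScalarTower ↥K (nmoA K A) M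
  haveI := nmo_isDVR K A hp hA
  obtain ⟨ϖ, hϖ⟩ := IsDiscreteValuationRing.exists_irreducible ↥(nmoA K A)
  set B := chartClosure ↥(nmoA K A) (ModelField ↥K M) x with hB
  -- the evaluation `B → {f | f(P) ∈ A}`
  let ev : ↥B →+* ↥(nmComp A P hdeg) :=
    RingHom.codRestrict (Θ.comp (B.val : ↥B →+* ModelField ↥K M))
      (nmComp A P hdeg).toSubring (fun g => hΘB g g.2)
  let 𝔫 : Ideal ↥B := Ideal.comap ev (IsLocalRing.maximalIdeal ↥(nmComp A P hdeg))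
  have hmem : ∀ g : ↥B, g ∈ 𝔫 ↔ Θ (g : ModelField ↥K M) ∈ nmMax A P := by
    intro g
    rw [← mem_nonunits_nmComp_iff A P hdeg,
      ValuationSubring.mem_nonunits_iff_exists_mem_maximalIdeal]
    constructor
    · intro h
      exact ⟨hΘB g g.2, h⟩
    · rintro ⟨_, h⟩
      exact h
  haveI hprime : 𝔫.IsPrime := Ideal.comap_isPrime ev _
  -- `ϖ ∈ 𝔫`
  have hΘA : ∀ a : ↥(nmoA K A), Θ (algebraMap ↥(nmoA K A) (ModelField ↥K M) a) =
      algebraMap Qb (FLb (M * p)) (((a : ↥K)) : Qb) := fun a => hΘa (a : ↥K)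
  have hconst : ∀ c : Qb, c ∈ A.nonunits → algebraMap Qb (FLb (M * p)) c ∈ nmMax A P :=
    fun c hc => ⟨c, hc, nm_hasValue_const P c⟩
  have hϖ𝔫 : algebraMap ↥(nmoA K A) ↥B ϖ ∈ 𝔫 := by
    rw [hmem]
    have e : ((algebraMap ↥(nmoA K A) ↥B ϖ : ↥B) : ModelField ↥K M) =
        algebraMap ↥(nmoA K A) (ModelField ↥K M) ϖ := rfl
    rw [e, hΘA]
    exact hconst _ (nmo_coe_mem_nonunits K hϖ.not_isUnit)
  -- maximality
  have hX : Fermat.Agent.H60.SS2.evB ↥(nmoA K A) (ModelField ↥K M) x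
      (X - C (⟨c₀, hc₀A⟩ : ↥(nmoA K A))) ∈ 𝔫 := by
    rw [hmem, Fermat.Agent.H60.SS2.coe_evB]
    have e : (aeval x) (X - C (⟨c₀, hc₀A⟩ : ↥(nmoA K A))) =
        x - algebraMap ↥K (ModelField ↥K M) c₀ := by
      rw [map_sub, aeval_X, aeval_C]
      rfl
    rw [e]
    exact hc₀
  have hXϖ : ¬ (C ϖ ∣ (X - C (⟨c₀, hc₀A⟩ : ↥(nmoA K A)))) := by
    rintro ⟨G, hG⟩
    have h1 : (X - C (⟨c₀, hc₀A⟩ : ↥(nmoA K A))).coeff 1 = (C ϖ * G).coeff 1 := by rw [← hG]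
    rw [coeff_sub, coeff_X_one, coeff_C_mul, coeff_C, if_neg one_ne_zero, sub_zero] at h1
    exact hϖ.not_isUnit (IsUnit.of_mul_eq_one _ h1.symm)
  have hϖ' : (C ϖ : (↥(nmoA K A))[X]) ∈
      𝔫.comap (Fermat.Agent.H60.SS2.evB ↥(nmoA K A) (ModelField ↥K M) x) := by
    rw [Ideal.mem_comap]
    have : Fermat.Agent.H60.SS2.evB ↥(nmoA K A) (ModelField ↥K M) x (C ϖ) =
        algebraMap ↥(nmoA K A) ↥B ϖ :=
      Polynomial.aeval_C _ ϖ
    rw [this]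
    exact hϖ𝔫
  haveI hcp : (𝔫.comap (Fermat.Agent.H60.SS2.evB ↥(nmoA K A) (ModelField ↥K M) x)).IsPrime :=
    Ideal.comap_isPrime _ _
  have hmaxc : (𝔫.comap (Fermat.Agent.H60.SS2.evB ↥(nmoA K A) (ModelField ↥K M) x)).IsMaximal :=
    Fermat.Agent.H60.SS2.poly_isMaximal_of_mem hϖ _ hϖ' (Ideal.mem_comap.2 hX) hXϖ
  have h𝔫 : 𝔫.IsMaximal :=
    Ideal.isMaximal_of_isIntegral_of_isMaximal_comap'
      (Fermat.Agent.H60.SS2.evB ↥(nmoA K A) (ModelField ↥K M) x)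
      (Fermat.Agent.H60.SS2.evB_isIntegral x) 𝔫 hmaxc
  -- the Frobenius parameter
  have hHB : Hh ∈ B :=
    Fermat.Agent.H62.SS.haupt4_mem_chartClosure M ↥K ↥(nmoA K A) x Hh hx
      (hH.trans (Fermat.Agent.H98.SS.coeffEmb_h4S ↥K))
  let U : ↥B := ⟨Hh - Hh ^ (p ^ 2), B.sub_mem hHB (B.pow_mem hHB _)⟩
  have hU𝔫 : U ∈ 𝔫 := (hmem U).2 hU
  obtain ⟨s, hs, b₁, b₂, hsb⟩ :=
    Fermat.Agent.H59.SS.modelLevelRegFrob_h4 M p hp hp2 hpM h4 ↥K ↥(nmoA K A)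
      (nmo_not_isUnit K A hA) ϖ hϖ x hx 𝔫 h𝔫 hϖ𝔫 U Hh hH rfl hU𝔫 ⟨b, hb⟩ ((hmem ⟨b, hb⟩).2 hbm)
  refine ⟨s, b₁, b₂, s.2, b₁.2, b₂.2, fun h => hs ((hmem s).2 h), ((ϖ : ↥K) : Qb),
    nmo_coe_mem_nonunits K hϖ.not_isUnit, ?_⟩
  have h1 : Θ ((s * ⟨b, hb⟩ : ↥B) : ModelField ↥K M) =
      Θ ((algebraMap ↥(nmoA K A) ↥B ϖ * b₁ + U * b₂ : ↥B) : ModelField ↥K M) := by
    rw [hsb]
  have e1 : ((s * ⟨b, hb⟩ : ↥B) : ModelField ↥K M) = (s : ModelField ↥K M) * b := rfl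
  have e2 : ((algebraMap ↥(nmoA K A) ↥B ϖ * b₁ + U * b₂ : ↥B) : ModelField ↥K M) =
      algebraMap ↥(nmoA K A) (ModelField ↥K M) ϖ * (b₁ : ModelField ↥K M) +
        (Hh - Hh ^ (p ^ 2)) * (b₂ : ModelField ↥K M) := rfl
  rw [e1, e2, map_mul, map_add, map_mul, map_mul, hΘA] at h1
  exact h1

end Step

end Fermat.Agent.H59.ORD
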