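import Mathlib
import Fermat.Agent.H23.PlaceBasic

/-!
# P-ORD, block B1, row [XY] part (c) : the abstract order lemma (helper59)

`Q` a place of a field `Fk`, `R₀ ⊆ Fk` a set of functions regular at `Q`, `u ∈ 𝔪_Q`.  If every
nonzero element of `R₀` is a unit at `Q` or `u` times an element of `R₀` (up to a unit at `Q`),
and `Fk` is the set of quotients of elements of `R₀`, then `u` is a uniformiser at `Q`.
-/

set_option autoImplicit false

noncomputable section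

open AlgebraicCurve

namespace Fermat.Agent.H59.ORD

variable {k Fk : Type*} [Field k] [Field Fk] [Algebra k Fk]

/-- the order of `u` divides the order of every nonzero element of `R₀` -/
theorem nmo_dvd_ord (Q : Place k Fk) (R₀ : Set Fk) (u : Fk) (hu : u ≠ 0 → 1 ≤ Q.ord u)
    (h0 : ∀ z ∈ R₀, z ≠ 0 → 0 ≤ Q.ord z)
    (hstep : ∀ z ∈ R₀, z ≠ 0 → Q.ord z = 0 ∨
      ∃ z₁ ∈ R₀, z₁ ≠ 0 ∧ u ≠ 0 ∧ Q.ord z = Q.ord u + Q.ord z₁) :
    ∀ (n : ℕ) (z : Fk), z ∈ R₀ → z ≠ 0 → Q.ord z = (n : ℤ) → Q.ord u ∣ Q.ord z := by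
  intro n
  induction n using Nat.strong_induction_on with
  | _ n ih =>
    intro z hz hz0 hn
    rcases hstep z hz hz0 with h | ⟨z₁, hz₁, hz₁0, hu0, h⟩
    · rw [h]
      exact dvd_zero _
    · have h1 : 0 ≤ Q.ord z₁ := h0 z₁ hz₁ hz₁0
      have hu1 := hu hu0
      obtain ⟨m, hm⟩ := Int.eq_ofNat_of_zero_le h1
      have hlt : m < n := by
        have : (m : ℤ) < (n : ℤ) := by omega
        exact_mod_cast this
      have h2 := ih m hlt z₁ hz₁ hz₁0 hm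
      rw [h]
      exact dvd_add (dvd_refl _) h2

/-- **The abstract order lemma.** -/
theorem nmo_ord_eq_one (Q : Place k Fk) (R₀ : Set Fk) (u : Fk) (hu : u ≠ 0 → 1 ≤ Q.ord u)
    (h0 : ∀ z ∈ R₀, z ≠ 0 → 0 ≤ Q.ord z)
    (hstep : ∀ z ∈ R₀, z ≠ 0 → Q.ord z = 0 ∨
      ∃ z₁ ∈ R₀, z₁ ≠ 0 ∧ u ≠ 0 ∧ Q.ord z = Q.ord u + Q.ord z₁)
    (hfrac : ∀ w : Fk, w ≠ 0 → ∃ a ∈ R₀, ∃ b ∈ R₀, b ≠ 0 ∧ w * b = a) :
    Q.ord u = 1 := by
  have hdvd : ∀ z ∈ R₀, z ≠ 0 → Q.ord u ∣ Q.ord z := by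
    intro z hz hz0
    obtain ⟨n, hn⟩ := Int.eq_ofNat_of_zero_le (h0 z hz hz0)
    exact nmo_dvd_ord Q R₀ u hu h0 hstep n z hz hz0 hn
  obtain ⟨π, -, hπ1⟩ := Fermat.Agent.H23.exists_irreducible_ord_one Q
  have hπ0 : (π : Fk) ≠ 0 := by
    intro h
    rw [h, Q.ord_zero] at hπ1
    exact zero_ne_one hπ1
  obtain ⟨a, ha, b, hb, hb0, hab⟩ := hfrac (π : Fk) hπ0
  have ha0 : a ≠ 0 := by
    rw [← hab]
    exact mul_ne_zero hπ0 hb0
  have h1 : Q.ord a = 1 + Q.ord b := by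
    rw [← hab, Q.ord_mul hπ0 hb0, hπ1]
  have h2 : Q.ord u ∣ 1 := by
    have ha' := hdvd a ha ha0
    have hb' := hdvd b hb hb0
    rw [h1] at ha'
    exact (dvd_add_left hb').1 ha'
  have hu0 : u ≠ 0 := by
    intro h
    rw [h, Q.ord_zero] at h2
    exact one_ne_zero (zero_dvd_iff.1 h2)
  have h3 := Int.le_of_dvd one_pos h2
  have h4 := hu hu0
  omega

/-- elements of the valuation ring which are not in the maximal ideal have order zero -/
theorem nmo_ord_eq_zero (Q : Place k Fk) {z : Fk} (hz : z ∈ Q.toValuationSubring)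
    (hzn : z ∉ Q.toValuationSubring.nonunits) : Q.ord z = 0 := by
  have h1 : 0 ≤ Q.ord z := Fermat.Agent.H23.ord_nonneg_of_mem Q hz
  by_contra hne
  apply hzn
  rw [ValuationSubring.mem_nonunits_iff_exists_mem_maximalIdeal]
  refine ⟨hz, (Fermat.Agent.H23.mem_maximalIdeal_iff_ord Q ⟨z, hz⟩).2 (Or.inr ?_)⟩
  show 0 < Q.ord z
  omega

/-- nonzero elements of the maximal ideal have positive order -/
theorem nmo_one_le_ord (Q : Place k Fk) {z : Fk} (hz : z ∈ Q.toValuationSubring.nonunits)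
    (hz0 : z ≠ 0) : 1 ≤ Q.ord z := by
  rw [ValuationSubring.mem_nonunits_iff_exists_mem_maximalIdeal] at hz
  obtain ⟨hmem, h⟩ := hz
  rcases (Fermat.Agent.H23.mem_maximalIdeal_iff_ord Q ⟨z, hmem⟩).1 h with h1 | h1
  · exact absurd h1 hz0
  · have : 0 < Q.ord z := h1
    omega

end Fermat.Agent.H59.ORD
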