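import Mathlib
import Fermat.Agent.H59.ORD.OrdAbs
import Fermat.Agent.H59.ORD.NmLevelStep
import Fermat.Agent.H59.ORD.NmFracBar

/-!
# P-ORD, block B1, row [XY] part (c) : the core, for a generic component (helper59)

`nmo_core` : a component `(V, red)` of the special fibre of `X₀(M p)`, a place `Q` of its function
field over the centre of `P` (chart `j`), a degeneracy map `Θ`, functions `X_v, Y_u` in the
centre with `red X_v = 0` and `Θ (H - H ^ (p²)) = Y_u + X_v G`.  Then `ord_Q (red Y_u) = 1`.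
-/

set_option autoImplicit false
set_option linter.unusedSectionVars false
set_option linter.unusedVariables false
set_option linter.style.haveILetI false
set_option maxSynthPendingDepth 3
set_option synthInstance.maxHeartbeats 400000
set_option maxHeartbeats 1600000

noncomputable section

open AlgebraicCurve ModularCurve Polynomial
open Fermat.Agent.H72.FF Fermat.Agent.H18.ORD Fermat.Agent.H66 Fermat.Agent.H27.ESD
open Fermat.Agent.H22.KL Fermat.Agent.H93.KL Fermat.Agent.H84.ORD Fermat.Agent.H9.E6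
open Fermat.Agent.H8.SS

namespace Fermat.Agent.H59.ORD

section Max

variable {N : ℕ} {A : ValuationSubring Qb} (P : Place Qb (FLb N))

theorem nmo_nmMax_add (hdeg : P.deg = 1) {f g : FLb N} (hf : f ∈ nmMax A P)
    (hg : g ∈ nmMax A P) : f + g ∈ nmMax A P := by
  rw [← mem_nonunits_nmComp_iff A P hdeg] at hf hg ⊢
  rw [ValuationSubring.mem_nonunits_iff] at hf hg ⊢
  exact Valuation.map_add_lt _ hf hg

theorem nmo_nmMax_mul (hdeg : P.deg = 1) {f g : FLb N} (hf : f ∈ nmMax A P)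
    (hg : g ∈ nmInt A P) : f * g ∈ nmMax A P := by
  rw [← mem_nonunits_nmComp_iff A P hdeg] at hf ⊢
  rw [← mem_nmComp_iff_nmInt A P hdeg] at hg
  rw [ValuationSubring.mem_nonunits_iff] at hf ⊢
  rw [map_mul]
  have hg' : (nmComp A P hdeg).valuation g ≤ 1 :=
    (ValuationSubring.valuation_le_one_iff _ _).2 hg
  calc (nmComp A P hdeg).valuation f * (nmComp A P hdeg).valuation g
      ≤ (nmComp A P hdeg).valuation f * 1 := by gcongr
    _ = (nmComp A P hdeg).valuation f := mul_one _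
    _ < 1 := hf

end Max

section Core

variable {M p : ℕ} [NeZero M] [NeZero p] {A : ValuationSubring Qb}

/-- **The core of part (c), generic component.** -/
theorem nmo_core (h4 : 4 ∣ M) (hp : p.Prime) (hp2 : p ≠ 2) (hpM : ¬ p ∣ M)
    (hA : A.LiesOverPrime p) (P : Place Qb (FLb (M * p))) (hy : nmY A P = nmJ (M * p))
    (V : Subring (FLb (M * p))) (red : V →+* NmF (M * p) A) (hC : CompSoft A V red)
    (Q : Place (kRes A) (NmF (M * p) A)) (hQ : GenSpec V red (nmCentre A P) Q)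
    (Θ : ∀ K : IntermediateField ℚ Qb, ModelField ↥K M →+* FLb (M * p))
    (hΘa : ∀ (K : IntermediateField ℚ Qb) (a : ↥K),
      Θ K (algebraMap ↥K (ModelField ↥K M) a) = algebraMap Qb (FLb (M * p)) (a : Qb))
    (hΘB : ∀ (K : IntermediateField ℚ Qb) (_ : FiniteDimensional ℚ ↥K) (b : ModelField ↥K M),
      (letI := modelAlgebra ↥K (nmoA K A) M
       b ∈ chartClosure ↥(nmoA K A) (ModelField ↥K M) (nmoX M K)) →
      Θ K b ∈ nmChart (M * p) A (nmJ (M * p)))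
    (y₀ : FLb (M * p)) (hy₀ : y₀ ∈ nmChart (M * p) A (nmJ (M * p)))
    (hΘx : ∀ K : IntermediateField ℚ Qb, Θ K (nmoX M K) = y₀)
    (Xv Yu G : FLb (M * p)) (hXv : Xv ∈ nmChart (M * p) A (nmJ (M * p)))
    (hYu : Yu ∈ nmChart (M * p) A (nmJ (M * p))) (hG : G ∈ nmChart (M * p) A (nmJ (M * p)))
    (hXm : Xv ∈ nmMax A P) (hYm : Yu ∈ nmMax A P)
    (hXred : ∀ h : Xv ∈ V, red ⟨Xv, h⟩ = 0)
    (hU : ∀ (K : IntermediateField ℚ Qb) (Hh : ModelField ↥K M),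
      (Hh : LaurentSeries ↥K) = coeffEmb ↥K (h4S ℚ) → Θ K (Hh - Hh ^ (p ^ 2)) = Yu + Xv * G)
    (hfrac : ∀ (c₀ : Qb) (w : NmF (M * p) A),
      ∃ (K : IntermediateField ℚ Qb) (_ : FiniteDimensional ℚ ↥K) (_ : c₀ ∈ K)
        (b₁ b₂ : ModelField ↥K M)
        (_ : letI := modelAlgebra ↥K (nmoA K A) M
          b₁ ∈ chartClosure ↥(nmoA K A) (ModelField ↥K M) (nmoX M K))
        (_ : letI := modelAlgebra ↥K (nmoA K A) M
          b₂ ∈ chartClosure ↥(nmoA K A) (ModelField ↥K M) (nmoX M K))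
        (h₁ : Θ K b₁ ∈ V) (h₂ : Θ K b₂ ∈ V),
        red ⟨_, h₂⟩ ≠ 0 ∧ w * red ⟨_, h₂⟩ = red ⟨_, h₁⟩) :
    ∃ hYV : Yu ∈ V, Q.ord (red ⟨Yu, hYV⟩) = 1 := by
  classical
  have hdeg : P.deg = 1 := hC.deg P
  -- the chart of `P` is `B̄(j)`
  have hch : ∀ {f : FLb (M * p)}, f ∈ nmChart (M * p) A (nmJ (M * p)) →
      f ∈ nmChart (M * p) A (nmY A P) := fun hf => by rw [hy]; exact hf
  have hV : ∀ {f : FLb (M * p)}, f ∈ nmChart (M * p) A (nmJ (M * p)) → f ∈ V :=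
    fun hf => hC.chart_le P (hch hf)
  have hInt : ∀ {f : FLb (M * p)}, f ∈ nmChart (M * p) A (nmJ (M * p)) → f ∈ nmInt A P :=
    fun hf => nmChart_value P hdeg (hch hf)
  -- the value of the coordinate
  obtain ⟨c₀, hc₀A, hc₀v⟩ := nmChart_value P hdeg (hch hy₀)
  have hYV : Yu ∈ V := hV hYu
  refine ⟨hYV, ?_⟩
  set u : NmF (M * p) A := red ⟨Yu, hYV⟩ with hu
  have huQ : u ∈ Q.toValuationSubring.nonunits := hQ Yu ⟨hch hYu, hYm⟩ hYV
  -- the set `R₀`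
  let R₀ : Set (NmF (M * p) A) := {z | ∃ (K : IntermediateField ℚ Qb)
    (_ : FiniteDimensional ℚ ↥K) (_ : c₀ ∈ K) (b : ModelField ↥K M)
    (_ : letI := modelAlgebra ↥K (nmoA K A) M
      b ∈ chartClosure ↥(nmoA K A) (ModelField ↥K M) (nmoX M K))
    (h : Θ K b ∈ V), z = red ⟨Θ K b, h⟩}
  refine nmo_ord_eq_one Q R₀ u (fun hu0 => nmo_one_le_ord Q huQ hu0) ?_ ?_ ?_
  · -- `R₀ ⊆ O_Q`
    rintro z ⟨K, hfd, hcK, b, hb, h, rfl⟩ -
    exact Fermat.Agent.H23.ord_nonneg_of_mem Q (hC.red_mem P hQ (hch (hΘB K hfd b hb)) h)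
  · -- the step
    rintro z ⟨K, hfd, hcK, b, hb, h, rfl⟩ hz0
    haveI := hfd
    by_cases hbm : Θ K b ∈ nmMax A P
    · right
      letI := modelAlgebra ↥K (nmoA K A) M
      have hc₀ : Θ K (nmoX M K - algebraMap ↥K (ModelField ↥K M) ⟨c₀, hcK⟩) ∈ nmMax A P := by
        rw [map_sub, hΘx, hΘa]
        refine ⟨0, (ValuationSubring.mem_nonunits_iff _).2 (by simp), ?_⟩
        have := nm_hasValue_sub P hc₀v (nm_hasValue_const P c₀)
        rwa [sub_self] at this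
      have hHh : (h4S ↥K) ∈ laurentBaseChange ↥K (modularFunctionFieldFull M) :=
        h4S_mem_laurentBaseChange ↥K M h4
      have hH : (((⟨h4S ↥K, hHh⟩ : ModelField ↥K M)) : LaurentSeries ↥K) =
          coeffEmb ↥K (h4S ℚ) := (Fermat.Agent.H98.SS.coeffEmb_h4S ↥K).symm
      have hUeq := hU K ⟨h4S ↥K, hHh⟩ hH
      have hUm : Θ K ((⟨h4S ↥K, hHh⟩ : ModelField ↥K M) -
          (⟨h4S ↥K, hHh⟩ : ModelField ↥K M) ^ (p ^ 2)) ∈ nmMax A P := by
        rw [hUeq]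
        exact nmo_nmMax_add P hdeg hYm (nmo_nmMax_mul P hdeg hXm (hInt hG))
      obtain ⟨s, b₁, b₂, hs, hb₁, hb₂, hsn, c, hc, heq⟩ :=
        nmo_levelStep P K h4 hp hp2 hpM hA hdeg (Θ K) (hΘa K) (nmoX M K) rfl
          (fun g hg => hInt (hΘB K hfd g hg)) ⟨c₀, hcK⟩ hc₀A hc₀ ⟨h4S ↥K, hHh⟩ hH hUm b hb hbm
      rw [hUeq] at heq
      have hsV : Θ K s ∈ V := hV (hΘB K hfd s hs)
      have hb₁V : Θ K b₁ ∈ V := hV (hΘB K hfd b₁ hb₁)
      have hb₂V : Θ K b₂ ∈ V := hV (hΘB K hfd b₂ hb₂)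
      have hcV : algebraMap Qb (FLb (M * p)) c ∈ V :=
        hC.const_mem c (ValuationSubring.nonunits_subset hc)
      have hXV : Xv ∈ V := hV hXv
      have hGV : G ∈ V := hV hG
      -- the equation in `V`
      have heqV : (⟨Θ K s, hsV⟩ : V) * ⟨Θ K b, h⟩ =
          ⟨algebraMap Qb (FLb (M * p)) c, hcV⟩ * ⟨Θ K b₁, hb₁V⟩ +
            (⟨Yu, hYV⟩ + ⟨Xv, hXV⟩ * ⟨G, hGV⟩) * ⟨Θ K b₂, hb₂V⟩ := Subtype.ext heq
      have hred := congrArg red heqV
      rw [map_mul, map_add, map_mul, map_mul, map_add, map_mul, hXred hXV,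
        hC.red_const_nonunit hc, zero_mul, zero_mul, zero_add, add_zero] at hred
      -- `red (Θ s)` is a unit of `O_Q`
      have hsQ : red ⟨Θ K s, hsV⟩ ∈ Q.toValuationSubring :=
        hC.red_mem P hQ (hch (hΘB K hfd s hs)) hsV
      have hsQn : red ⟨Θ K s, hsV⟩ ∉ Q.toValuationSubring.nonunits := fun hn =>
        hsn ((hC.red_mem_nonunits_iff P hQ (hch (hΘB K hfd s hs)) hsV).1 hn)
      have hs0 : red ⟨Θ K s, hsV⟩ ≠ 0 := by
        intro h0
        apply hsQn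
        rw [h0]
        exact (ValuationSubring.mem_nonunits_iff _).2 (by simp)
      have hords : Q.ord (red ⟨Θ K s, hsV⟩) = 0 := nmo_ord_eq_zero Q hsQ hsQn
      have hprod : red ⟨Θ K s, hsV⟩ * red ⟨Θ K b, h⟩ ≠ 0 := mul_ne_zero hs0 hz0
      rw [hred] at hprod
      have hu0 : u ≠ 0 := left_ne_zero_of_mul hprod
      have hz₁0 : red ⟨Θ K b₂, hb₂V⟩ ≠ 0 := right_ne_zero_of_mul hprod
      refine ⟨red ⟨Θ K b₂, hb₂V⟩, ⟨K, hfd, hcK, b₂, hb₂, hb₂V, rfl⟩, hz₁0, hu0, ?_⟩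
      have h1 := congrArg Q.ord hred
      rw [Q.ord_mul hs0 hz0, Q.ord_mul hu0 hz₁0, hords, zero_add] at h1
      exact h1
    · left
      have hzQ : red ⟨Θ K b, h⟩ ∈ Q.toValuationSubring :=
        hC.red_mem P hQ (hch (hΘB K hfd b hb)) h
      have hzQn : red ⟨Θ K b, h⟩ ∉ Q.toValuationSubring.nonunits := fun hn =>
        hbm ((hC.red_mem_nonunits_iff P hQ (hch (hΘB K hfd b hb)) h).1 hn)
      exact nmo_ord_eq_zero Q hzQ hzQn
  · -- FRAC
    intro w hw0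
    obtain ⟨K, hfd, hcK, b₁, b₂, hb₁, hb₂, h₁, h₂, hne, heq⟩ := hfrac c₀ w
    exact ⟨red ⟨Θ K b₁, h₁⟩, ⟨K, hfd, hcK, b₁, hb₁, h₁, rfl⟩, red ⟨Θ K b₂, h₂⟩,
      ⟨K, hfd, hcK, b₂, hb₂, h₂, rfl⟩, hne, heq⟩

end Core

end Fermat.Agent.H59.ORD
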