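import Mathlib
import Fermat.Agent.H59.ORD.NmCrossCore
import Fermat.Agent.H3.ORD.NmCrossDefs
import Fermat.Agent.H8.SS.Theta
import Fermat.Agent.H84.ORD.NodalSpecFinal

/-!
# P-ORD, block B1, row [XY] part (c) : `NmCrossOrdStatement` (helper59)

`nmCrossOrd : NmSoftStatement M p → NmDvrOoStatement M p → NmDvrZeroStatement M p →
  Fermat.Agent.H3.ORD.NmCrossOrdStatement M p` :
at a node of `X₀(M p)` (chart `j`, centre on both components, `X = H_p - H ^ p` and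
`Y = H - H_p ^ p` in the centre) every place `Q` of `F_∞` over the centre has
`ord_Q (red_∞ Y) = 1` and every place `Q'` of `F_0` over the centre has `ord_Q' (red_0 X) = 1`
(`nmCrossOrd_oo`, `nmCrossOrd_zero`); the places exist by [DVR].

Route: `Fermat.Agent.H59.SS.modelLevelRegFrob_h4` (level `M` is regular at the supersingular
points with parameter `U = H - H ^ (p²)`, any discrete valuation ring `A ∩ K`, ramified or not),
FRAC (`nmo_frac`), and the abstract order lemma `nmo_ord_eq_one`.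
-/

set_option autoImplicit false
set_option linter.unusedSectionVars false
set_option linter.unusedVariables false
set_option linter.style.haveILetI false
set_option maxSynthPendingDepth 3
set_option synthInstance.maxHeartbeats 400000
set_option maxHeartbeats 1600000

noncomputable section

open AlgebraicCurve ModularCurve Polynomial
open Fermat.Agent.H72.FF Fermat.Agent.H18.ORD Fermat.Agent.H66 Fermat.Agent.H27.ESD
open Fermat.Agent.H22.KL Fermat.Agent.H93.KL Fermat.Agent.H84.ORD Fermat.Agent.H9.E6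
open Fermat.Agent.H8.SS Fermat.Agent.H3.ORD

namespace Fermat.Agent.H59.ORD

section Canon

variable (M p : ℕ) [NeZero M] [NeZero p] (h4 : 4 ∣ M) (K : IntermediateField ℚ Qb)

theorem nmo_coeffMap_h4 (Hh : ModelField ↥K M)
    (hH : (Hh : LaurentSeries ↥K) = coeffEmb ↥K (h4S ℚ)) :
    coeffMap (algebraMap ↥K Qb) (Hh : LaurentSeries ↥K) = h4S Qb := by
  rw [hH, Fermat.Agent.H98.SS.coeffEmb_h4S, coeffMap_h4S]

theorem nmoThetaOo_h4 (Hh : ModelField ↥K M)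
    (hH : (Hh : LaurentSeries ↥K) = coeffEmb ↥K (h4S ℚ)) :
    nmoThetaOo M p K Hh = nmH M p h4 := by
  apply Subtype.ext
  rw [coe_nmoThetaOo, coe_nmH, nmo_coeffMap_h4 M K Hh hH]

theorem nmoThetaZero_h4 (Hh : ModelField ↥K M)
    (hH : (Hh : LaurentSeries ↥K) = coeffEmb ↥K (h4S ℚ)) :
    nmoThetaZero M p K Hh = nmHp M p h4 := by
  apply Subtype.ext
  rw [coe_nmoThetaZero, coe_nmHp, nmo_coeffMap_h4 M K Hh hH]

theorem nmoThetaOo_x : nmoThetaOo M p K (nmoX M K) = nmJ (M * p) := by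
  rw [nmoThetaOo_eq]
  exact nmoBc_x (M * p) K _ (by rw [coe_heckeAlphaBar, coe_nmoX])

theorem nmoThetaZero_x (K' : IntermediateField ℚ Qb) :
    nmoThetaZero M p K (nmoX M K) = nmoThetaZero M p K' (nmoX M K') := by
  apply Subtype.ext
  rw [coe_nmoThetaZero, coe_nmoThetaZero]
  have h1 : ∀ L : IntermediateField ℚ Qb,
      coeffMap (algebraMap ↥L Qb) ((nmoX M L : ModelField ↥L M) : LaurentSeries ↥L) =
        coeffEmb Qb jq := fun L => nmoBc_coeffEmb M L jq (nmoX M L) rfl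
  exact congrArg (qExpand Qb p) ((h1 K).trans (h1 K').symm)

/-- the two geometric sums -/
def nmoGOo : FLb (M * p) :=
  ∑ i ∈ Finset.range p, nmHp M p h4 ^ i * (nmH M p h4 ^ p) ^ (p - 1 - i)

def nmoGZero : FLb (M * p) :=
  ∑ i ∈ Finset.range p, nmH M p h4 ^ i * (nmHp M p h4 ^ p) ^ (p - 1 - i)

theorem nmo_U_oo : nmH M p h4 - nmH M p h4 ^ (p ^ 2) =
    nmYc M p h4 + nmX M p h4 * nmoGOo M p h4 := by
  have h := geom_sum₂_mul (nmHp M p h4) (nmH M p h4 ^ p) p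
  have e : (nmH M p h4 ^ p) ^ p = nmH M p h4 ^ (p ^ 2) := by rw [← pow_mul, sq]
  have h' : nmoGOo M p h4 * nmX M p h4 = nmHp M p h4 ^ p - nmH M p h4 ^ (p ^ 2) := by
    rw [← e]
    exact h
  rw [mul_comm (nmX M p h4), h', nmYc]
  exact (sub_add_sub_cancel _ _ _).symm

theorem nmo_U_zero : nmHp M p h4 - nmHp M p h4 ^ (p ^ 2) =
    nmX M p h4 + nmYc M p h4 * nmoGZero M p h4 := by
  have h := geom_sum₂_mul (nmH M p h4) (nmHp M p h4 ^ p) p
  have e : (nmHp M p h4 ^ p) ^ p = nmHp M p h4 ^ (p ^ 2) := by rw [← pow_mul, sq]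
  have h' : nmoGZero M p h4 * nmYc M p h4 = nmH M p h4 ^ p - nmHp M p h4 ^ (p ^ 2) := by
    rw [← e]
    exact h
  rw [mul_comm (nmYc M p h4), h', nmX]
  exact (sub_add_sub_cancel _ _ _).symm

end Canon

section Final

variable {M p : ℕ} [NeZero M] [NeZero p] {A : ValuationSubring Qb}

/-- `(p : A) ∈ 𝔪_A` -/
theorem nmo_natCast_mem (hA : A.LiesOverPrime p) :
    ((p : ℕ) : ↥A) ∈ IsLocalRing.maximalIdeal ↥A := by
  have h1 : (p : Qb) ∈ A.nonunits := hA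
  rw [ValuationSubring.mem_nonunits_iff_exists_mem_maximalIdeal] at h1
  obtain ⟨hmem, hmax⟩ := h1
  have e : (⟨(p : Qb), hmem⟩ : ↥A) = ((p : ℕ) : ↥A) := Subtype.ext (by simp)
  rw [← e]
  exact hmax

/-- **Frobenius congruence** : `red_∞ (H_p - H ^ p) = 0`. -/
theorem nmo_red_nmX (h4 : 4 ∣ M) (hp : p.Prime) (hA : A.LiesOverPrime p)
    (h : nmX M p h4 ∈ gaussOBar (M * p) A) : nmRedOo (M * p) A ⟨nmX M p h4, h⟩ = 0 := by
  haveI : Fact p.Prime := ⟨hp⟩
  obtain ⟨δ, hδ⟩ := Fermat.Agent.H8.SS.exists_delta p h4Z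
  set Y : LaurentSeries ↥A := coeffMap (Int.castRingHom ↥A) ((p : ℤ) • δ) with hY
  have hcoe : ((nmX M p h4 : FLb (M * p)) : LaurentSeries Qb) = vIota A Y := by
    rw [coe_nmX, hY, vIota, coeffMap_coeffMap]
    have e1 : (A.subtype : ↥A →+* Qb).comp (Int.castRingHom ↥A) = Int.castRingHom Qb :=
      RingHom.ext fun c => by simp
    rw [coeffMap_congr e1]
    have e2 : (p : ℤ) • δ = qExpand ℤ p h4Z - h4Z ^ p := by
      rw [hδ]
      ring
    rw [e2, map_sub, map_pow, ModularCurve.coeffMap_qExpand]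
    rfl
  rw [nmRedOo_eq_zero_iff]
  have h2 := gaussRedBar_of_eq_vIota (M * p) A hcoe
  have h3 : gaussRedBar (M * p) A ⟨nmX M p h4, h⟩ = vRho A Y := h2
  rw [h3]
  ext n
  rw [vRho, coeffMap_coeff, hY, coeffMap_coeff, HahnSeries.coeff_zero,
    IsLocalRing.residue_eq_zero_iff]
  have e3 : ((p : ℤ) • δ).coeff n = (p : ℤ) * δ.coeff n := by
    rw [HahnSeries.coeff_smul, smul_eq_mul]
  rw [e3, map_mul]
  have e4 : (Int.castRingHom ↥A) (p : ℤ) = ((p : ℕ) : ↥A) := by simp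
  rw [e4]
  exact Ideal.mul_mem_right _ _ (nmo_natCast_mem hA)

/-- `H ∈ B̄(j)` -/
theorem nmo_nmH_mem (h4 : 4 ∣ M) (A : ValuationSubring Qb) :
    nmH M p h4 ∈ nmChart (M * p) A (nmJ (M * p)) := by
  have hHh : (h4S ↥(⊥ : IntermediateField ℚ Qb)) ∈
      laurentBaseChange ↥(⊥ : IntermediateField ℚ Qb) (modularFunctionFieldFull M) :=
    h4S_mem_laurentBaseChange ↥(⊥ : IntermediateField ℚ Qb) M h4
  have hH : (((⟨h4S ↥(⊥ : IntermediateField ℚ Qb), hHh⟩ :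
      ModelField ↥(⊥ : IntermediateField ℚ Qb) M)) :
        LaurentSeries ↥(⊥ : IntermediateField ℚ Qb)) =
      coeffEmb ↥(⊥ : IntermediateField ℚ Qb) (h4S ℚ) :=
    (Fermat.Agent.H98.SS.coeffEmb_h4S ↥(⊥ : IntermediateField ℚ Qb)).symm
  rw [← nmoThetaOo_h4 M p h4 ⊥ ⟨_, hHh⟩ hH]
  letI := modelAlgebra ↥(⊥ : IntermediateField ℚ Qb) (nmoA ⊥ A) M
  haveI := modelAlgebra_isScalarTower ↥(⊥ : IntermediateField ℚ Qb) (nmoA ⊥ A) M
  exact nmoThetaOo_mem_nmChart M p ⊥ A (nmoX M ⊥) rfl _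
    (Fermat.Agent.H62.SS.haupt4_mem_chartClosure M ↥(⊥ : IntermediateField ℚ Qb)
      ↥(nmoA ⊥ A) (nmoX M ⊥) _ rfl rfl)

/-- `H_p ∈ B̄(j)` -/
theorem nmo_nmHp_mem (h4 : 4 ∣ M) (hp : p.Prime) (hp2 : p ≠ 2) (hpM : ¬ p ∣ M)
    (hA : A.LiesOverPrime p) : nmHp M p h4 ∈ nmChart (M * p) A (nmJ (M * p)) := by
  have hHh : (h4S ↥(⊥ : IntermediateField ℚ Qb)) ∈
      laurentBaseChange ↥(⊥ : IntermediateField ℚ Qb) (modularFunctionFieldFull M) :=
    h4S_mem_laurentBaseChange ↥(⊥ : IntermediateField ℚ Qb) M h4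
  have hH : (((⟨h4S ↥(⊥ : IntermediateField ℚ Qb), hHh⟩ :
      ModelField ↥(⊥ : IntermediateField ℚ Qb) M)) :
        LaurentSeries ↥(⊥ : IntermediateField ℚ Qb)) =
      coeffEmb ↥(⊥ : IntermediateField ℚ Qb) (h4S ℚ) :=
    (Fermat.Agent.H98.SS.coeffEmb_h4S ↥(⊥ : IntermediateField ℚ Qb)).symm
  rw [← nmoThetaZero_h4 M p h4 ⊥ ⟨_, hHh⟩ hH]
  letI := modelAlgebra ↥(⊥ : IntermediateField ℚ Qb) (nmoA ⊥ A) M
  haveI := modelAlgebra_isScalarTower ↥(⊥ : IntermediateField ℚ Qb) (nmoA ⊥ A) M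
  exact nmoThetaZero_mem_nmChart M p ⊥ A h4 hp hp2 hpM hA (nmoX M ⊥) rfl _
    (Fermat.Agent.H62.SS.haupt4_mem_chartClosure M ↥(⊥ : IntermediateField ℚ Qb)
      ↥(nmoA ⊥ A) (nmoX M ⊥) _ rfl rfl)

theorem nmo_GOo_mem (h4 : 4 ∣ M) (hp : p.Prime) (hp2 : p ≠ 2) (hpM : ¬ p ∣ M)
    (hA : A.LiesOverPrime p) : nmoGOo M p h4 ∈ nmChart (M * p) A (nmJ (M * p)) :=
  Subring.sum_mem _ fun i _ => Subring.mul_mem _
    (Subring.pow_mem _ (nmo_nmHp_mem h4 hp hp2 hpM hA) _)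
    (Subring.pow_mem _ (Subring.pow_mem _ (nmo_nmH_mem h4 A) _) _)

theorem nmo_GZero_mem (h4 : 4 ∣ M) (hp : p.Prime) (hp2 : p ≠ 2) (hpM : ¬ p ∣ M)
    (hA : A.LiesOverPrime p) : nmoGZero M p h4 ∈ nmChart (M * p) A (nmJ (M * p)) :=
  Subring.sum_mem _ fun i _ => Subring.mul_mem _
    (Subring.pow_mem _ (nmo_nmH_mem h4 A) _)
    (Subring.pow_mem _ (Subring.pow_mem _ (nmo_nmHp_mem h4 hp hp2 hpM hA) _) _)

/-- **Part (c), component `∞`** : `ord_Q (red_∞ Y) = 1` at every place `Q` of `F_∞` over a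
supersingular centre. -/
theorem nmCrossOrd_oo (H : NmBase M p A) (P : Place Qb (FLb (M * p)))
    (hy : nmY A P = nmJ (M * p))
    (hX : nmX M p H.setup.four ∈ nmChart (M * p) A (nmJ (M * p)))
    (hY : nmYc M p H.setup.four ∈ nmChart (M * p) A (nmJ (M * p)))
    (hXm : nmX M p H.setup.four ∈ nmMax A P) (hYm : nmYc M p H.setup.four ∈ nmMax A P)
    (Q : Place (kRes A) (NmF (M * p) A)) (hQ : NmSpecOo M p A (nmCentre A P) Q) :
    ∃ hYV : nmYc M p H.setup.four ∈ gaussOBar (M * p) A,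
      Q.ord (nmRedOo (M * p) A ⟨nmYc M p H.setup.four, hYV⟩) = 1 := by
  have h4 := H.setup.four
  have hp := H.setup.prime
  have hp2 := H.setup.odd
  have hcop := H.setup.cop
  have hA := H.setup.liesOver
  have hpM : ¬ p ∣ M := (Nat.Prime.coprime_iff_not_dvd hp).1 hcop.symm
  exact nmo_core h4 hp hp2 hpM hA P hy (gaussOBar (M * p) A) (nmRedOo (M * p) A) H.oo Q hQ
    (nmoThetaOo M p) (nmoThetaOo_algebraMap M p)
    (fun K hfd b hb => nmoThetaOo_mem_nmChart M p K A (nmoX M K) rfl b hb)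
    (nmJ (M * p)) (self_mem_nmChart A _) (nmoThetaOo_x M p)
    (nmX M p h4) (nmYc M p h4) (nmoGOo M p h4) hX hY (nmo_GOo_mem h4 hp hp2 hpM hA) hXm hYm
    (fun h => nmo_red_nmX h4 hp hA h)
    (fun K Hh hH => by
      rw [map_sub, map_pow, nmoThetaOo_h4 M p h4 K Hh hH]
      exact nmo_U_oo M p h4)
    (fun c₀ w => nmo_frac M p A hp hpM hA H c₀ w)

/-- **Part (c), component `0`** : `ord_Q' (red_0 X) = 1` at every place `Q'` of `F_0` over a
supersingular centre. -/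
theorem nmCrossOrd_zero (H : NmBase M p A) (P : Place Qb (FLb (M * p)))
    (hy : nmY A P = nmJ (M * p))
    (hX : nmX M p H.setup.four ∈ nmChart (M * p) A (nmJ (M * p)))
    (hY : nmYc M p H.setup.four ∈ nmChart (M * p) A (nmJ (M * p)))
    (hXm : nmX M p H.setup.four ∈ nmMax A P) (hYm : nmYc M p H.setup.four ∈ nmMax A P)
    (Q : Place (kRes A) (NmF (M * p) A))
    (hQ : NmSpecZero M p H.setup.cop A (nmCentre A P) Q) :
    ∃ hXV : nmX M p H.setup.four ∈ nmV0 M p H.setup.cop A,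
      Q.ord (nmRed0 M p H.setup.cop A ⟨nmX M p H.setup.four, hXV⟩) = 1 := by
  have h4 := H.setup.four
  have hp := H.setup.prime
  have hp2 := H.setup.odd
  have hcop := H.setup.cop
  have hA := H.setup.liesOver
  have hpM : ¬ p ∣ M := (Nat.Prime.coprime_iff_not_dvd hp).1 hcop.symm
  have hy₀ : nmoThetaZero M p ⊥ (nmoX M ⊥) ∈ nmChart (M * p) A (nmJ (M * p)) := by
    letI := modelAlgebra ↥(⊥ : IntermediateField ℚ Qb) (nmoA ⊥ A) M
    haveI := modelAlgebra_isScalarTower ↥(⊥ : IntermediateField ℚ Qb) (nmoA ⊥ A) M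
    exact nmoThetaZero_mem_nmChart M p ⊥ A h4 hp hp2 hpM hA (nmoX M ⊥) rfl _
      (Fermat.Agent.H62.SS.chartRing_le_chartClosure _
        (Fermat.Agent.H62.SS.self_mem_chartRing _))
  exact nmo_core h4 hp hp2 hpM hA P hy (nmV0 M p hcop A) (nmRed0 M p hcop A) H.zero Q hQ
    (nmoThetaZero M p) (nmoThetaZero_algebraMap M p)
    (fun K hfd b hb => by
      haveI := hfd
      exact nmoThetaZero_mem_nmChart M p K A h4 hp hp2 hpM hA (nmoX M K) rfl b hb)
    (nmoThetaZero M p ⊥ (nmoX M ⊥)) hy₀ (fun K => nmoThetaZero_x M p K ⊥)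
    (nmYc M p h4) (nmX M p h4) (nmoGZero M p h4) hY hX (nmo_GZero_mem h4 hp hp2 hpM hA) hYm hXm
    (fun h => by
      rw [nmRed0_apply]
      have h' : nmX M p h4 ∈ gaussOBar (M * p) A := by
        have := (mem_nmV0_iff M p hcop A _).1 h
        rwa [nmW_nmYc] at this
      have e : (⟨nmW M p hcop (nmYc M p h4), (mem_nmV0_iff M p hcop A _).1 h⟩ :
          ↥(gaussOBar (M * p) A)) = ⟨nmX M p h4, h'⟩ := Subtype.ext (nmW_nmYc M p h4 hcop)
      exact (congrArg (nmRedOo (M * p) A) e).trans (nmo_red_nmX h4 hp hA h'))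
    (fun K Hh hH => by
      rw [map_sub, map_pow, nmoThetaZero_h4 M p h4 K Hh hH]
      exact nmo_U_zero M p h4)
    (fun c₀ w => by
      obtain ⟨K, hfd, hcK, b₁, b₂, hb₁, hb₂, h₁, h₂, hne, heq⟩ := nmo_frac M p A hp hpM hA H c₀ w
      have h₁' : nmoThetaZero M p K b₁ ∈ nmV0 M p hcop A := by
        rw [mem_nmV0_iff, nmW_nmoThetaZero]
        exact h₁
      have h₂' : nmoThetaZero M p K b₂ ∈ nmV0 M p hcop A := by
        rw [mem_nmV0_iff, nmW_nmoThetaZero]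
        exact h₂
      have e₁ : nmRed0 M p hcop A ⟨_, h₁'⟩ = nmRedOo (M * p) A ⟨_, h₁⟩ := by
        rw [nmRed0_apply]
        exact congrArg (nmRedOo (M * p) A) (Subtype.ext (nmW_nmoThetaZero M p K hcop b₁))
      have e₂ : nmRed0 M p hcop A ⟨_, h₂'⟩ = nmRedOo (M * p) A ⟨_, h₂⟩ := by
        rw [nmRed0_apply]
        exact congrArg (nmRedOo (M * p) A) (Subtype.ext (nmW_nmoThetaZero M p K hcop b₂))
      refine ⟨K, hfd, hcK, b₁, b₂, hb₁, hb₂, h₁', h₂', ?_, ?_⟩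
      · rw [e₂]
        exact hne
      · rw [e₂, e₁]
        exact heq)

end Final

/-- **Row [XY], part (c)** : the branches at the nodes. -/
theorem nmCrossOrd {M p : ℕ} [NeZero M] [NeZero p] (hS : NmSoftStatement M p)
    (hDo : NmDvrOoStatement M p) (hDz : NmDvrZeroStatement M p) :
    Fermat.Agent.H3.ORD.NmCrossOrdStatement M p := by
  intro A h P hOo hZ hy hX hY hXm hYm
  have H : NmBase M p A := nmBase_of_soft hS h
  obtain ⟨Q, hQ, -⟩ := hDo A h P hOo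
  obtain ⟨Q', hQ', -⟩ := hDz A h P hZ
  exact ⟨Q, Q', hQ, hQ', nmCrossOrd_oo H P hy hX hY hXm hYm Q hQ,
    nmCrossOrd_zero H P hy hX hY hXm hYm Q' hQ'⟩

end Fermat.Agent.H59.ORD
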