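import Fermat.Agent.H59.ORD.NmCrossOrd
import Fermat.Agent.H3.ORD.NmCrossRel
import Fermat.Agent.H20.ORD.NmSoft
import Fermat.Agent.H95.ORD.LocalW

/-!
# P-ORD, block B1, row [XY] : closed forms modulo [DVR-oo] (helper59)

* `nmCrossOrd_of_dvrOo : NmDvrOoStatement M p → Fermat.Agent.H3.ORD.NmCrossOrdStatement M p`
* `nmCross_of_dvrOo : NmDvrOoStatement M p → Fermat.Agent.H84.ORD.NmCrossStatement M p`
-/

set_option autoImplicit false

namespace Fermat.Agent.H59.ORD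

open Fermat.Agent.H84.ORD

/-- part (c) of `[XY]` from `[DVR-oo]` alone -/
theorem nmCrossOrd_of_dvrOo {M p : ℕ} [NeZero M] [NeZero p] (hDo : NmDvrOoStatement M p) :
    Fermat.Agent.H3.ORD.NmCrossOrdStatement M p :=
  nmCrossOrd (Fermat.Agent.H20.ORD.nmSoft M p) hDo
    (Fermat.Agent.H95.ORD.nmDvrZero_of_oo' M p (Fermat.Agent.H20.ORD.nmSoft M p) hDo)

/-- **Row `[XY]`** from `[DVR-oo]` alone -/
theorem nmCross_of_dvrOo {M p : ℕ} [NeZero M] [NeZero p] (hDo : NmDvrOoStatement M p) :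
    NmCrossStatement M p :=
  Fermat.Agent.H3.ORD.nmCross_of_ord M p (nmCrossOrd_of_dvrOo hDo)

end Fermat.Agent.H59.ORD
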